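/-
Project S33 (ordinarity at `p ∥ N`), cell [S33-TOP], leaf (TOP-LOC) (helper19).  Prefix `s33tl_`.

THE LOCAL DATA AT A PLACE `P ∣ p`.  `H` a Hecke–Galois datum of level `N` away from `S ∋ p`,
`V = H.ρ.V` (free of rank two over the complete local ring `T`, `p ∈ 𝔪_T`), `ε = cya_eps p T`
the cyclotomic character with values in `T` (`det ρ = ε`: `sst_det_eq_eps`),
`I = P.inertiaSubgroupIn ℚ`.  If the residual representation is ordinary at `p` (`hres`) then:

* `s33tl_exists_tau0` : there is `τ0 ∈ I` with `ε τ0 - 1 ∈ Tˣ` (`χ̄` is ramified at `p`, `p` odd: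
                        the place-free core `s44c_chiRam`);
* `s33tl_ident`       : for every `τ ∈ I`, `σ ∈ I`, `v ∈ V`:
                        `ρ τ (ρ σ v - v) - ε τ • (ρ σ v - v) ∈ 𝔪_T V`
                        [`(σ - 1) V̄ ⊆ L̄`, and `τ` acts on the line `L̄` through `det = ε`, being
                        trivial on `V̄ / L̄`]: THE IDENTITY `(ρ̄ τ - ε τ)(ρ̄ σ - 1) = 0`;
* `s33tl_ident_mat`   : the same for the matrices `ffc_rm_rho1 H.ρ 𝔪_T` (the `ρ₁` of [CAR]);
* `s33tl_moves`       : `ε τ - 1 ∈ Tˣ` ⟹ `ρ τ v - v ∉ 𝔪_T V` for some `v` (`(I - 1) V̄ ≠ 0`);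
* `s33tl_line`        : the `D_P`-stable line `L̄` of `V̄` with `(I - 1) V̄ ⊆ L̄`, restated on
                        `k ⊗ V`.

Abstract part (Mathlib only): `s33tl_line_scalar` (an endomorphism of a plane preserving a line and
trivial on the quotient acts on the line through its determinant), `s33tl_tmul_eq_zero` (the kernel
of `V → k ⊗ V`).
-/
import Mathlib
import Fermat.Agent.SS.Transfer
import Fermat.Agent.S44.ChiRam.Main
import Fermat.Agent.FF.Car.RepMod

set_option autoImplicit false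
set_option linter.unusedSectionVars false
set_option linter.style.haveILetI false
set_option linter.unusedSimpArgs false

noncomputable section

namespace Fermat.Agent.S33

open IsLocalRing Fermat.Agent.JT3 Fermat.Agent.SS Fermat.Agent.FF Fermat.Agent.S44
open scoped TensorProduct

/-! ### abstract lemmas -/

section Abstract

/-- an endomorphism `f` of a plane which preserves the line `k b₀` and is trivial on the quotient
acts on the line through `det f`. -/
theorem s33tl_line_scalar {k W : Type*} [Field k] [AddCommGroup W] [Module k W]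
    (b : Module.Basis (Fin 2) k W) (f : Module.End k W)
    (hL : f (b 0) ∈ Submodule.span k {b 0})
    (hQ : ∀ v : W, f v - v ∈ Submodule.span k {b 0})
    {w : W} (hw : w ∈ Submodule.span k {b 0}) : f w = LinearMap.det f • w := by
  classical
  obtain ⟨a, ha⟩ := Submodule.mem_span_singleton.mp hL
  obtain ⟨x, hx⟩ := Submodule.mem_span_singleton.mp (hQ (b 1))
  have hb1 : f (b 1) = b 1 + x • b 0 := by rw [hx]; abel
  have hdet : LinearMap.det f = a := by
    rw [← LinearMap.det_toMatrix b, Matrix.det_fin_two]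
    have h00 : LinearMap.toMatrix b b f 0 0 = a := by
      rw [LinearMap.toMatrix_apply, ← ha, map_smul, b.repr_self]
      simp
    have h10 : LinearMap.toMatrix b b f 1 0 = 0 := by
      rw [LinearMap.toMatrix_apply, ← ha, map_smul, b.repr_self]
      simp
    have h11 : LinearMap.toMatrix b b f 1 1 = 1 := by
      rw [LinearMap.toMatrix_apply, hb1, map_add, map_smul, b.repr_self, b.repr_self]
      simp
    rw [h00, h10, h11]
    ring
  obtain ⟨c, rfl⟩ := Submodule.mem_span_singleton.mp hw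
  rw [map_smul, ← ha, hdet, smul_comm]

/-- the kernel of `V → k ⊗ V` for a free module `V` over a local ring. -/
theorem s33tl_tmul_eq_zero {T V : Type*} [CommRing T] [IsLocalRing T] [AddCommGroup V] [Module T V]
    {ι : Type*} [Fintype ι] (b : Module.Basis ι T V) {x : V}
    (hx : (1 : ResidueField T) ⊗ₜ[T] x = 0) :
    x ∈ maximalIdeal T • (⊤ : Submodule T V) := by
  classical
  have h1 : ∀ i, b.repr x i ∈ maximalIdeal T := by
    intro i
    have h2 := congrArg (fun y => (b.baseChange (ResidueField T)).repr y i) hx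
    simp only [Module.Basis.baseChange_repr_tmul, map_zero, Finsupp.coe_zero, Pi.zero_apply] at h2
    rw [Algebra.smul_def, mul_one, ResidueField.algebraMap_eq, residue_eq_zero_iff] at h2
    exact h2
  rw [← b.sum_repr x]
  exact Submodule.sum_mem _ fun i _ => Submodule.smul_mem_smul (h1 i) Submodule.mem_top

end Abstract

/-! ### the local data of a Hecke–Galois datum -/

section Datum

variable {p : ℕ} {N : ℕ} [NeZero N] {S : Finset ℕ}
  {𝒪 : Type} [CommRing 𝒪] [IsDomain 𝒪] [IsDiscreteValuationRing 𝒪]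
  [IsAdicComplete (IsLocalRing.maximalIdeal 𝒪) 𝒪]
  {θ : CuspForm.heckeAlgebra N 2 (↑S : Set ℕ) →+* IsLocalRing.ResidueField 𝒪}
  {T : Type} [CommRing T] [IsLocalRing T] [IsNoetherianRing T]
  [IsAdicComplete (IsLocalRing.maximalIdeal T) T] [Algebra 𝒪 T] [IsLocalHom (algebraMap 𝒪 T)]
  [Module.Finite 𝒪 T] [Module.Free 𝒪 T]

/-- inertia is contained in the decomposition group. -/
theorem s33tl_inertia_le (P : ValuationSubring ff_Qb) :
    P.inertiaSubgroupIn ℚ ≤ P.decompositionSubgroup ℚ := by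
  intro σ hσ
  obtain ⟨τ, -, rfl⟩ := Subgroup.mem_map.mp hσ
  exact τ.2

/-- **`χ̄` is ramified at `p`**: an element of inertia with `ε τ0 - 1` a unit of `T`. -/
theorem s33tl_exists_tau0 [Fact p.Prime] (hp2 : p ≠ 2) (hpT : (p : T) ∈ maximalIdeal T)
    (P : ValuationSubring ff_Qb) (hP : P.LiesOverPrime p) :
    ∃ τ0 ∈ P.inertiaSubgroupIn ℚ, IsUnit (cya_eps p T hpT τ0 - 1) := by
  have hp : p.Prime := Fact.out
  haveI : NeZero p := ⟨hp.ne_zero⟩
  obtain ⟨ζ, hζ⟩ := HasEnoughRootsOfUnity.exists_primitiveRoot ff_Qb p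
  obtain ⟨τ0, hτ0, k₀, hk₀, hne⟩ := s44c_chiRam p hp2 P hP ζ hζ
  refine ⟨τ0, hτ0, ?_⟩
  -- `τ0 μ = μ ^ k₀` on `μ_p`
  have hall : ∀ μ : ff_Qb, μ ^ p ^ 1 = 1 → τ0 μ = μ ^ k₀ := by
    intro μ hμ
    rw [pow_one] at hμ
    obtain ⟨i, -, rfl⟩ := hζ.eq_pow_of_pow_eq_one hμ
    rw [map_pow, hk₀, ← pow_mul, ← pow_mul, mul_comm]
  have h1 := cya_chi_toZModPow p τ0 hall
  -- `χ τ0 - 1` is a unit of `ℤ_p`
  have hunit : IsUnit (cya_chi p τ0 - 1) := by
    rw [PadicInt.isUnit_iff]
    by_contra hnorm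
    have hlt : ‖cya_chi p τ0 - 1‖ < 1 :=
      lt_of_le_of_ne (PadicInt.norm_le_one _) hnorm
    rw [PadicInt.norm_lt_one_iff_dvd] at hlt
    have hker : cya_chi p τ0 - 1 ∈ RingHom.ker (PadicInt.toZModPow (p := p) 1) := by
      rw [PadicInt.ker_toZModPow, pow_one, Ideal.mem_span_singleton]
      exact hlt
    rw [RingHom.mem_ker, map_sub, map_one, h1, sub_eq_zero] at hker
    apply hne
    have h2 : ((k₀ : ℕ) : ZMod (p ^ 1)) = ((1 : ℕ) : ZMod (p ^ 1)) := by
      rw [hker, Nat.cast_one]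
    rw [ZMod.natCast_eq_natCast_iff, pow_one] at h2
    exact_mod_cast (Int.natCast_modEq_iff.mpr h2)
  have h3 : cya_eps p T hpT τ0 - 1 = cya_padicHom p T hpT (cya_chi p τ0 - 1) := by
    rw [map_sub, map_one, cya_eps_apply]
  rw [h3]
  exact hunit.map (cya_padicHom p T hpT)

variable (H : CuspForm.HeckeGaloisRepDatum N (↑S : Set ℕ) 𝒪 θ T)

/-- **the `D_P`-stable line of the residual representation**, on `k ⊗ V`. -/
theorem s33tl_line {p : ℕ}
    (hres : (GaloisRepAdic.ofResidualGaloisRep H.ρ.residual).IsOrdinaryAt p)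
    (P : ValuationSubring ff_Qb) (hP : P.LiesOverPrime p) :
    ∃ b : Module.Basis (Fin 2) (ResidueField T) (ResidueField T ⊗[T] H.ρ.V),
      (∀ σ ∈ P.decompositionSubgroup ℚ,
        (H.ρ.ρ σ).baseChange (ResidueField T) (b 0) ∈ Submodule.span (ResidueField T) {b 0}) ∧
      ∀ σ ∈ P.inertiaSubgroupIn ℚ, ∀ w : ResidueField T ⊗[T] H.ρ.V,
        (H.ρ.ρ σ).baseChange (ResidueField T) w - w ∈ Submodule.span (ResidueField T) {b 0} := by
  obtain ⟨L, ⟨b, hL⟩, hD, hI⟩ := hres P hP
  refine ⟨b, fun σ hσ => ?_, fun σ hσ w => ?_⟩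
  · have h1 := hD σ hσ (b 0) (by rw [hL]; exact Submodule.mem_span_singleton_self _)
    rw [hL] at h1
    exact h1
  · have h1 := hI σ hσ w
    rw [hL] at h1
    exact h1

/-- **THE IDENTITY `(ρ̄ τ - ε τ)(ρ̄ σ - 1) = 0`** for `τ, σ` in the inertia group, on `V` modulo
`𝔪_T V`. -/
theorem s33tl_ident [Fact p.Prime] (hpT : (p : T) ∈ maximalIdeal T) (hpS : p ∈ S)
    (hNS : ∀ q : ℕ, q.Prime → q ∣ N → q ∈ S)
    (hres : (GaloisRepAdic.ofResidualGaloisRep H.ρ.residual).IsOrdinaryAt p)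
    (P : ValuationSubring ff_Qb) (hP : P.LiesOverPrime p)
    {τ σ : ff_GQ} (hτ : τ ∈ P.inertiaSubgroupIn ℚ) (hσ : σ ∈ P.inertiaSubgroupIn ℚ)
    (v : H.ρ.V) :
    H.ρ.ρ τ (H.ρ.ρ σ v - v) - cya_eps p T hpT τ • (H.ρ.ρ σ v - v) ∈
      maximalIdeal T • (⊤ : Submodule T H.ρ.V) := by
  obtain ⟨b, hD, hI⟩ := s33tl_line H hres P hP
  set k := ResidueField T with hk
  set y : H.ρ.V := H.ρ.ρ σ v - v with hy
  -- the determinant of the residual endomorphism
  have hdet : LinearMap.det ((H.ρ.ρ τ).baseChange k) = residue T (cya_eps p T hpT τ) := by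
    rw [LinearMap.det_baseChange, sst_det_eq_eps H hpT hpS hNS τ]
    rfl
  have hw : (1 : k) ⊗ₜ[T] y ∈ Submodule.span k {b 0} := by
    have h1 := hI σ hσ ((1 : k) ⊗ₜ[T] v)
    rw [LinearMap.baseChange_tmul, ← TensorProduct.tmul_sub] at h1
    exact h1
  have h2 := s33tl_line_scalar b ((H.ρ.ρ τ).baseChange k)
    (hD τ (s33tl_inertia_le P hτ)) (hI τ hτ) hw
  rw [LinearMap.baseChange_tmul, hdet] at h2
  apply s33tl_tmul_eq_zero (ffc_rm_basis H.ρ)
  rw [TensorProduct.tmul_sub, h2, TensorProduct.tmul_smul, TensorProduct.smul_tmul',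
    sub_eq_zero]
  congr 1

/-- `ε τ - 1 ∈ Tˣ` ⟹ `τ` moves some vector modulo `𝔪_T V`. -/
theorem s33tl_moves [Fact p.Prime] (hpT : (p : T) ∈ maximalIdeal T) (hpS : p ∈ S)
    (hNS : ∀ q : ℕ, q.Prime → q ∣ N → q ∈ S) {τ : ff_GQ}
    (hu : IsUnit (cya_eps p T hpT τ - 1)) :
    ∃ v : H.ρ.V, H.ρ.ρ τ v - v ∉ maximalIdeal T • (⊤ : Submodule T H.ρ.V) := by
  by_contra hcon
  push Not at hcon
  set k := ResidueField T with hk
  -- the residual endomorphism is the identity
  have hone : (H.ρ.ρ τ).baseChange k = 1 := by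
    apply LinearMap.ext
    intro w
    induction w using TensorProduct.induction_on with
    | zero => simp
    | tmul c v =>
      rw [LinearMap.baseChange_tmul, Module.End.one_apply, ← sub_eq_zero, ← TensorProduct.tmul_sub]
      refine Submodule.smul_induction_on (p := fun x => c ⊗ₜ[T] x = (0 : k ⊗[T] H.ρ.V))
        (hcon v) ?_ ?_
      · intro a ha w _
        rw [TensorProduct.tmul_smul, TensorProduct.smul_tmul', Algebra.smul_def,
          ResidueField.algebraMap_eq, (residue_eq_zero_iff a).mpr ha, zero_mul,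
          TensorProduct.zero_tmul]
      · intro x y hx hy
        rw [TensorProduct.tmul_add, hx, hy, add_zero]
    | add x y hx hy => rw [map_add, map_add, hx, hy]
  have hdet : LinearMap.det ((H.ρ.ρ τ).baseChange k) = residue T (cya_eps p T hpT τ) := by
    rw [LinearMap.det_baseChange, sst_det_eq_eps H hpT hpS hNS τ]
    rfl
  rw [hone, map_one] at hdet
  have h1 : residue T (cya_eps p T hpT τ - 1) = 0 := by rw [map_sub, map_one, ← hdet, sub_self]
  rw [residue_eq_zero_iff] at h1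
  exact (mem_maximalIdeal _).mp h1 hu

/-- coordinates of an element of `I V` lie in `I`. -/
theorem s33tl_repr_mem {T V : Type*} [CommRing T] [AddCommGroup V] [Module T V]
    {ι : Type*} (b : Module.Basis ι T V) (I : Ideal T) {x : V}
    (hx : x ∈ I • (⊤ : Submodule T V)) (i : ι) : b.repr x i ∈ I := by
  refine Submodule.smul_induction_on (p := fun x => b.repr x i ∈ I) hx ?_ ?_
  · intro a ha w _
    rw [map_smul, Finsupp.smul_apply, smul_eq_mul]
    exact I.mul_mem_right _ ha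
  · intro x y hx hy
    rw [map_add, Finsupp.add_apply]
    exact I.add_mem hx hy

/-- **the identity `(ρ̄₁ τ - ε̄ τ)(ρ̄₁ σ - 1) = 0` in `M₂(T / 𝔪_T)`** for the matrices
`ρ̄₁ = ffc_rm_rho1 H.ρ 𝔪_T` of [CAR]. -/
theorem s33tl_ident_mat [Fact p.Prime] (hpT : (p : T) ∈ maximalIdeal T) (hpS : p ∈ S)
    (hNS : ∀ q : ℕ, q.Prime → q ∣ N → q ∈ S)
    (hres : (GaloisRepAdic.ofResidualGaloisRep H.ρ.residual).IsOrdinaryAt p)
    (P : ValuationSubring ff_Qb) (hP : P.LiesOverPrime p)
    {τ σ : ff_GQ} (hτ : τ ∈ P.inertiaSubgroupIn ℚ) (hσ : σ ∈ P.inertiaSubgroupIn ℚ) :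
    (ffc_rm_rho1 H.ρ (maximalIdeal T) τ -
        Ideal.Quotient.mk (maximalIdeal T) (cya_eps p T hpT τ) • 1) *
      (ffc_rm_rho1 H.ρ (maximalIdeal T) σ - 1) = 0 := by
  classical
  set F : Module.End T H.ρ.V :=
    (H.ρ.ρ τ - cya_eps p T hpT τ • 1) * (H.ρ.ρ σ - 1) with hF
  have hFv : ∀ v : H.ρ.V, F v ∈ maximalIdeal T • (⊤ : Submodule T H.ρ.V) := by
    intro v
    have h1 := s33tl_ident H hpT hpS hNS hres P hP hτ hσ v
    simpa [hF, Module.End.mul_apply, LinearMap.sub_apply, LinearMap.smul_apply] using h1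
  have hmat : (LinearMap.toMatrix (ffc_rm_basis H.ρ) (ffc_rm_basis H.ρ) F).map (Ideal.Quotient.mk (maximalIdeal T)) = 0 := by
    ext i j
    rw [Matrix.map_apply, LinearMap.toMatrix_apply, Matrix.zero_apply,
      Ideal.Quotient.eq_zero_iff_mem]
    exact s33tl_repr_mem (ffc_rm_basis H.ρ) _ (hFv (ffc_rm_basis H.ρ j)) i
  have hFm : LinearMap.toMatrix (ffc_rm_basis H.ρ) (ffc_rm_basis H.ρ) F =
      (LinearMap.toMatrix (ffc_rm_basis H.ρ) (ffc_rm_basis H.ρ) (H.ρ.ρ τ) - cya_eps p T hpT τ • 1) *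
        (LinearMap.toMatrix (ffc_rm_basis H.ρ) (ffc_rm_basis H.ρ) (H.ρ.ρ σ) - 1) := by
    rw [hF, LinearMap.toMatrix_mul, map_sub, map_sub, map_smul, LinearMap.toMatrix_one]
  rw [hFm] at hmat
  rw [ffc_rm_rho1_apply, ffc_rm_rho1_apply, ← hmat, Matrix.map_mul]
  congr 1
  · ext i j
    by_cases hij : i = j
    · subst hij
      simp [Matrix.map_apply, Matrix.sub_apply, Matrix.smul_apply, Matrix.one_apply]
    · simp [Matrix.map_apply, Matrix.sub_apply, Matrix.smul_apply, Matrix.one_apply, hij]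
  · ext i j
    by_cases hij : i = j
    · subst hij
      simp [Matrix.map_apply, Matrix.sub_apply, Matrix.one_apply]
    · simp [Matrix.map_apply, Matrix.sub_apply, Matrix.one_apply, hij]

end Datum

end Fermat.Agent.S33
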