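/-
Project S33 (ordinary at `p ∥ N`), the assembly, STEP 1 (helper27, architect).  Prefix `s33s_`.

The frozen statement S33 follows from the nilpotence statement (NILP):

  for every place `P` over `p`, every `τ0 ∈ I_P` and every `k₀ : ℕ` with `τ0 μ = μ ^ k₀` on `μ_p`
  and `k₀ ≢ 1 mod p`:  `∀ n, ∃ k, ∀ σ ∈ I_P, ∀ v, (ρ τ0 - k₀) ^ k (ρ σ v - v) ∈ 𝔪_T ^ n V`.

Inputs: `s33a_top` ([ALG-TOP], `S33/Alg.lean`), the local data of `S33/Top/Loc.lean`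
(`s33tl_line`, `s33tl_moves`, `s33tl_tmul_eq_zero`), `s44c_chiRam`, `cya_eps_spec`.

* `s33s_conj_mem`   : inertia is normal in the decomposition group;
* `s33s_tau0`       : the pair `(τ0, k₀)`;
* `s33s_basis_lift` : a basis `b` of `V` with `(I_P - 1) V ⊆ T b 0 + 𝔪_T V`;
* `s33s_Nilp`, **`s33s_step1`**.
-/
import Mathlib
import Fermat.Statements.S33
import Fermat.Agent.S33.Alg
import Fermat.Agent.S33.Top.Loc

set_option autoImplicit false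
set_option linter.unusedSectionVars false
set_option linter.style.haveILetI false

noncomputable section

namespace Fermat.Agent.S33

open IsLocalRing Fermat.Agent.JT3 Fermat.Agent.SS Fermat.Agent.FF Fermat.Agent.S44
open scoped TensorProduct

/-- inertia is normal in the decomposition group. -/
theorem s33s_conj_mem (P : ValuationSubring ff_Qb) {δ σ : ff_GQ}
    (hδ : δ ∈ P.decompositionSubgroup ℚ) (hσ : σ ∈ P.inertiaSubgroupIn ℚ) :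
    δ * σ * δ⁻¹ ∈ P.inertiaSubgroupIn ℚ := by
  obtain ⟨σ', hσ', rfl⟩ := Subgroup.mem_map.mp hσ
  have h1 : (⟨δ, hδ⟩ : ↥(P.decompositionSubgroup ℚ)) * σ' * (⟨δ, hδ⟩ : ↥(P.decompositionSubgroup ℚ))⁻¹ ∈
      P.inertiaSubgroup ℚ := by
    unfold ValuationSubring.inertiaSubgroup at hσ' ⊢
    exact (MonoidHom.normal_ker _).conj_mem σ' hσ' _
  exact Subgroup.mem_map.mpr ⟨_, h1, rfl⟩

section Datum

variable {p : ℕ} {N : ℕ} [NeZero N] {S : Finset ℕ}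
  {𝒪 : Type} [CommRing 𝒪] [IsDomain 𝒪] [IsDiscreteValuationRing 𝒪]
  [IsAdicComplete (IsLocalRing.maximalIdeal 𝒪) 𝒪]
  {θ : CuspForm.heckeAlgebra N 2 (↑S : Set ℕ) →+* IsLocalRing.ResidueField 𝒪}
  {T : Type} [CommRing T] [IsLocalRing T] [IsNoetherianRing T]
  [IsAdicComplete (IsLocalRing.maximalIdeal T) T] [Algebra 𝒪 T] [IsLocalHom (algebraMap 𝒪 T)]
  [Module.Finite 𝒪 T] [Module.Free 𝒪 T]

/-- the pair `(τ0, k₀)`: `τ0 ∈ I_P` raises the `p`-th roots of unity to the power `k₀ ≢ 1 mod p`. -/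
theorem s33s_tau0 [Fact p.Prime] (hp2 : p ≠ 2) (P : ValuationSubring ff_Qb)
    (hP : P.LiesOverPrime p) :
    ∃ τ0 ∈ P.inertiaSubgroupIn ℚ, ∃ k₀ : ℕ, (∀ μ : ff_Qb, μ ^ p = 1 → τ0 μ = μ ^ k₀) ∧
      ¬ (k₀ : ℤ) ≡ 1 [ZMOD (p : ℤ)] := by
  have hp : p.Prime := Fact.out
  haveI : NeZero p := ⟨hp.ne_zero⟩
  obtain ⟨ζ, hζ⟩ := HasEnoughRootsOfUnity.exists_primitiveRoot ff_Qb p
  obtain ⟨τ0, hτ0, k₀, hk₀, hne⟩ := s44c_chiRam p hp2 P hP ζ hζ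
  refine ⟨τ0, hτ0, k₀, fun μ hμ => ?_, hne⟩
  obtain ⟨i, -, rfl⟩ := hζ.eq_pow_of_pow_eq_one hμ
  rw [map_pow, hk₀, ← pow_mul, ← pow_mul, mul_comm]

/-- `ε τ0 ≡ k₀` modulo `𝔪_T`. -/
theorem s33s_eps_sub_mem [Fact p.Prime] (hpT : (p : T) ∈ maximalIdeal T) (τ0 : ff_GQ) (k₀ : ℕ)
    (h : ∀ μ : ff_Qb, μ ^ p = 1 → τ0 μ = μ ^ k₀) :
    cya_eps p T hpT τ0 - (k₀ : T) ∈ maximalIdeal T := by
  have h1 := cya_eps_spec p T hpT 1 τ0 k₀ (fun μ hμ => h μ (by rwa [pow_one] at hμ))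
  rw [pow_one, Ideal.mem_span_singleton] at h1
  obtain ⟨t, ht⟩ := h1
  rw [ht]
  exact Ideal.mul_mem_right _ _ hpT

/-- `k₀ - 1` is a unit of `T`. -/
theorem s33s_isUnit [Fact p.Prime] (hpT : (p : T) ∈ maximalIdeal T) (k₀ : ℕ)
    (hne : ¬ (k₀ : ℤ) ≡ 1 [ZMOD (p : ℤ)]) : IsUnit ((((k₀ : ℕ) : ℤ) : T) - 1) := by
  refine s33a_isUnit_sub_one p Fact.out hpT (k₀ : ℤ) fun hdvd => hne ?_
  exact (Int.modEq_iff_dvd.mpr hdvd).symm

variable (H : CuspForm.HeckeGaloisRepDatum N (↑S : Set ℕ) 𝒪 θ T)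

/-- a basis `b` of `V` with `(I_P - 1) V ⊆ T b 0 + 𝔪_T V`. -/
theorem s33s_basis_lift
    (hres : (GaloisRepAdic.ofResidualGaloisRep H.ρ.residual).IsOrdinaryAt p)
    (P : ValuationSubring ff_Qb) (hP : P.LiesOverPrime p) :
    ∃ b : Module.Basis (Fin 2) T H.ρ.V, ∀ σ ∈ P.inertiaSubgroupIn ℚ, ∀ v : H.ρ.V,
      H.ρ.ρ σ v - v ∈ (T ∙ b 0) ⊔ maximalIdeal T • (⊤ : Submodule T H.ρ.V) := by
  classical
  obtain ⟨bk, -, hI⟩ := s33tl_line H hres P hP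
  set k := ResidueField T with hk
  have hsurj : Function.Surjective (TensorProduct.mk T k H.ρ.V 1) :=
    TensorProduct.mk_surjective T H.ρ.V k Ideal.Quotient.mk_surjective
  choose w hw using fun i => hsurj (bk i)
  have hw' : ∀ i, (1 : k) ⊗ₜ[T] w i = bk i := hw
  have hspan : ⊤ ≤ Submodule.span T (Set.range w) :=
    (IsLocalRing.span_eq_top_of_tmul_eq_basis w bk hw').ge
  have hcard : Fintype.card (Fin 2) = Module.finrank T H.ρ.V := by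
    rw [H.ρ.finrank_eq, Fintype.card_fin]
  let b : Module.Basis (Fin 2) T H.ρ.V := basisOfTopLeSpanOfCardEqFinrank w hspan hcard
  have hb : ∀ i, b i = w i := fun i => by
    show (basisOfTopLeSpanOfCardEqFinrank w hspan hcard) i = w i
    rw [coe_basisOfTopLeSpanOfCardEqFinrank]
  refine ⟨b, fun σ hσ v => ?_⟩
  have h1 := hI σ hσ ((1 : k) ⊗ₜ[T] v)
  rw [LinearMap.baseChange_tmul, ← TensorProduct.tmul_sub] at h1
  obtain ⟨a, ha⟩ := Submodule.mem_span_singleton.mp h1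
  obtain ⟨a', rfl⟩ := residue_surjective a
  have h2 : (1 : k) ⊗ₜ[T] (H.ρ.ρ σ v - v - a' • b 0) = 0 := by
    rw [TensorProduct.tmul_sub, ← ha, sub_eq_zero, TensorProduct.tmul_smul, hb, ← hw' 0,
      TensorProduct.smul_tmul', TensorProduct.smul_tmul', smul_eq_mul, mul_one, Algebra.smul_def,
      mul_one]
    rfl
  have h3 := s33tl_tmul_eq_zero b h2
  have h4 : H.ρ.ρ σ v - v = a' • b 0 + (H.ρ.ρ σ v - v - a' • b 0) := by abel
  rw [h4]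
  exact Submodule.add_mem_sup (Submodule.smul_mem _ _ (Submodule.mem_span_singleton_self _)) h3

/-- **(NILP)** at a place `P`, for `τ0` and the integer `c`. -/
def s33s_Nilp (P : ValuationSubring ff_Qb) (τ0 : ff_GQ) (c : ℤ) : Prop :=
  ∀ n : ℕ, ∃ k : ℕ, ∀ σ ∈ P.inertiaSubgroupIn ℚ, ∀ v : H.ρ.V,
    ((H.ρ.ρ τ0 - ((c : ℤ) : T) • (1 : Module.End T H.ρ.V)) ^ k) (H.ρ.ρ σ v - v) ∈
      (maximalIdeal T ^ n) • (⊤ : Submodule T H.ρ.V)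

/-- **STEP 1**: the frozen statement S33 from (NILP). -/
theorem s33s_step1 [Finite (IsLocalRing.ResidueField 𝒪)] [CharZero 𝒪]
    (hp : p.Prime) (hp2 : p ≠ 2) (hp𝒪 : (p : 𝒪) ∈ IsLocalRing.maximalIdeal 𝒪)
    (hN : p ∣ N ∧ ¬ p ^ 2 ∣ N) (hNS : ∀ q : ℕ, q.Prime → q ∣ N → q ∈ S)
    (hres : (GaloisRepAdic.ofResidualGaloisRep H.ρ.residual).IsOrdinaryAt p)
    (hnilp : ∀ (P : ValuationSubring ff_Qb), P.LiesOverPrime p →
      ∀ τ0 ∈ P.inertiaSubgroupIn ℚ, ∀ k₀ : ℕ, (∀ μ : ff_Qb, μ ^ p = 1 → τ0 μ = μ ^ k₀) →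
        ¬ (k₀ : ℤ) ≡ 1 [ZMOD (p : ℤ)] → s33s_Nilp H P τ0 (k₀ : ℤ)) :
    H.ρ.IsOrdinaryAt p := by
  haveI : Fact p.Prime := ⟨hp⟩
  have hpT : (p : T) ∈ maximalIdeal T := by
    have h1 := map_nonunit (algebraMap 𝒪 T) (p : 𝒪) hp𝒪
    rwa [map_natCast] at h1
  have hpS : p ∈ S := hNS p hp hN.1
  intro P hP
  obtain ⟨τ0, hτ0, k₀, hk₀, hne⟩ := s33s_tau0 hp2 P hP
  obtain ⟨b, hb⟩ := s33s_basis_lift H hres P hP
  have hu : IsUnit (cya_eps p T hpT τ0 - 1) := by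
    have h1 := s33s_isUnit hpT k₀ hne
    have h2 := s33s_eps_sub_mem hpT τ0 k₀ hk₀
    have h3 : cya_eps p T hpT τ0 - 1 = (cya_eps p T hpT τ0 - (k₀ : T)) + ((((k₀ : ℕ) : ℤ) : T) - 1) := by
      push_cast
      ring
    rw [h3]
    by_contra hn
    have h4 := Ideal.sub_mem _ ((mem_maximalIdeal _).mpr hn) h2
    rw [add_sub_cancel_left] at h4
    exact (mem_maximalIdeal _).mp h4 h1
  exact s33a_top H.ρ.ρ (P.decompositionSubgroup ℚ) (P.inertiaSubgroupIn ℚ)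
    (fun δ hδ σ hσ => s33s_conj_mem P hδ hσ) b hb τ0 hτ0 (((k₀ : ℕ) : ℤ) : T)
    (s33s_isUnit hpT k₀ hne) (s33tl_moves H hpT hpS hNS hu) (hnilp P hP τ0 hτ0 k₀ hk₀ hne)

end Datum

end Fermat.Agent.S33
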