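/-
Project S33 (ordinary at `p ∥ N`), cell [S33-TOP], part (TOP-FIN) (helper19).  Prefix `s33tf_`.
Namespace `Fermat.Agent.S33`.

The finite-level glue between [S33-CAR+] (pushed to `J₀(N)[p ^ M] ^ m` by `s33cp_push`), (OLD)
(`s33o_old_ker`), (GEO) (`s33g_core` / its dévissage) and [ALG-KEY] (`s33a_key`).

* (F1) `s33tf_proj_smul`, `s33tf_proj_eq_zero_iff` : `ffc_s32_proj N p M : T_p J₀(N) → J₀(N)[p ^ M]`
  is equivariant and its kernel is `p ^ M T_p` (the binders `hπe`, `hπk` of `s33cp_push`);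
* (F2) `s33tf_psi1`, `s33tf_psi2 : J₀(M' p)[p ^ k] →+ J₀(M')[p ^ k]` (the two degeneracy maps) and
  `s33tf_Psi M' p k m : (Fin m → J₀(M' p)[p ^ k]) →+ (Fin (m + m) → J₀(M')[p ^ k])`, equivariant, with
  coordinatewise kernel;
* (F3) `s33tf_coord_mem` : the coordinates of `(I - 1) G1` (`G1` a stable subgroup of
  `J₀(N)[p ^ k] ^ m`) lie in the subgroup generated by the `σ z - z`, `σ ∈ I`, `p ^ k z = 0`;
  `s33tf_coord_smul`, `s33tf_coord_inj`, `s33tf_pow_smul` : the inputs `hev`, `hinj`, `hpn` of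
  `s33g_nilp_fam1` for `ev := s33tf_coord`;
* `s33tf_old` : the hypothesis `hold` of `s33a_key` from the pushed filtration (`s33o_old_ker`);
* `s33tf_key` : `s33a_key` for `ψ = Ψ`, with `hold` discharged.
-/
import Mathlib
import Fermat.Agent.FF.Car.S32
import Fermat.Agent.S35.PMaps
import Fermat.Agent.S33.Alg
import Fermat.Agent.S33.OldMap

set_option autoImplicit false
set_option linter.unusedSectionVars false
set_option linter.style.haveILetI false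

noncomputable section

namespace Fermat.Agent.S33

open Fermat.Agent.FF Fermat.Agent.JT3 Fermat.Agent.S35 ModularCurve

/-! ### (F1) the projection of the Tate module -/

theorem s33tf_proj_smul (N p : ℕ) [NeZero N] [Fact p.Prime] (M : ℕ) (σ : ff_GQ) (x : tj_T N p) :
    ffc_s32_proj N p M (tj_rho N p σ x) = σ • ffc_s32_proj N p M x := rfl

theorem s33tf_proj_eq_zero_iff (N p : ℕ) [NeZero N] [Fact p.Prime] (M : ℕ) (x : tj_T N p) :
    ffc_s32_proj N p M x = 0 ↔ ∃ y : tj_T N p, x = ((p : ℤ_[p]) ^ M) • y := by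
  constructor
  · intro hx
    exact tm_exists_eq_smul x M (congrArg Subtype.val hx)
  · rintro ⟨y, rfl⟩
    exact Subtype.ext (tm_smul_pow_apply y M)

/-! ### (F2) the degeneracy maps on the torsion -/

section Psi

variable (M' p : ℕ) [NeZero M'] [NeZero p] (k : ℕ)

/-- `(α_p)_*` on the `p ^ k`-torsion -/
def s33tf_psi1 : ↥(Submodule.torsionBy ℤ (JZero (M' * p)) ((p : ℤ) ^ k)) →+
    ↥(Submodule.torsionBy ℤ (JZero M') ((p : ℤ) ^ k)) where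
  toFun x := ⟨s35p_P1J M' p x.1, by
    rw [Submodule.mem_torsionBy_iff, ← map_zsmul, (Submodule.mem_torsionBy_iff _ _).mp x.2,
      map_zero]⟩
  map_zero' := Subtype.ext (map_zero _)
  map_add' x y := Subtype.ext (map_add _ _ _)

/-- `(β_p)_*` on the `p ^ k`-torsion -/
def s33tf_psi2 : ↥(Submodule.torsionBy ℤ (JZero (M' * p)) ((p : ℤ) ^ k)) →+
    ↥(Submodule.torsionBy ℤ (JZero M') ((p : ℤ) ^ k)) where
  toFun x := ⟨s35p_P2J M' p x.1, by
    rw [Submodule.mem_torsionBy_iff, ← map_zsmul, (Submodule.mem_torsionBy_iff _ _).mp x.2,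
      map_zero]⟩
  map_zero' := Subtype.ext (map_zero _)
  map_add' x y := Subtype.ext (map_add _ _ _)

theorem s33tf_psi1_coe (x : ↥(Submodule.torsionBy ℤ (JZero (M' * p)) ((p : ℤ) ^ k))) :
    ((s33tf_psi1 M' p k x : ↥(Submodule.torsionBy ℤ (JZero M') ((p : ℤ) ^ k))) : JZero M') =
      s35p_P1J M' p (x : JZero (M' * p)) := rfl

theorem s33tf_psi2_coe (x : ↥(Submodule.torsionBy ℤ (JZero (M' * p)) ((p : ℤ) ^ k))) :
    ((s33tf_psi2 M' p k x : ↥(Submodule.torsionBy ℤ (JZero M') ((p : ℤ) ^ k))) : JZero M') =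
      s35p_P2J M' p (x : JZero (M' * p)) := rfl

theorem s33tf_psi1_smul (σ : ff_GQ)
    (x : ↥(Submodule.torsionBy ℤ (JZero (M' * p)) ((p : ℤ) ^ k))) :
    s33tf_psi1 M' p k (σ • x) = σ • s33tf_psi1 M' p k x :=
  Subtype.ext (s35p_P1J_smul M' p σ x.1)

theorem s33tf_psi2_smul (σ : ff_GQ)
    (x : ↥(Submodule.torsionBy ℤ (JZero (M' * p)) ((p : ℤ) ^ k))) :
    s33tf_psi2 M' p k (σ • x) = σ • s33tf_psi2 M' p k x :=
  Subtype.ext (s35p_P2J_smul M' p σ x.1)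

/-- `ψ ^ m : (J₀(M' p)[p ^ k]) ^ m → (J₀(M')[p ^ k]) ^ (m + m)` -/
def s33tf_Psi (m : ℕ) :
    (Fin m → ↥(Submodule.torsionBy ℤ (JZero (M' * p)) ((p : ℤ) ^ k))) →+
      (Fin (m + m) → ↥(Submodule.torsionBy ℤ (JZero M') ((p : ℤ) ^ k))) :=
  AddMonoidHom.pi fun j => Fin.addCases
    (motive := fun _ => (Fin m → ↥(Submodule.torsionBy ℤ (JZero (M' * p)) ((p : ℤ) ^ k))) →+
      ↥(Submodule.torsionBy ℤ (JZero M') ((p : ℤ) ^ k)))
    (fun i => (s33tf_psi1 M' p k).comp (Pi.evalAddMonoidHom _ i))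
    (fun i => (s33tf_psi2 M' p k).comp (Pi.evalAddMonoidHom _ i)) j

theorem s33tf_Psi_left (m : ℕ)
    (y : Fin m → ↥(Submodule.torsionBy ℤ (JZero (M' * p)) ((p : ℤ) ^ k))) (i : Fin m) :
    s33tf_Psi M' p k m y (Fin.castAdd m i) = s33tf_psi1 M' p k (y i) := by
  show (Fin.addCases
    (motive := fun _ => (Fin m → ↥(Submodule.torsionBy ℤ (JZero (M' * p)) ((p : ℤ) ^ k))) →+
      ↥(Submodule.torsionBy ℤ (JZero M') ((p : ℤ) ^ k)))
    (fun i => (s33tf_psi1 M' p k).comp (Pi.evalAddMonoidHom _ i))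
    (fun i => (s33tf_psi2 M' p k).comp (Pi.evalAddMonoidHom _ i)) (Fin.castAdd m i)) y = _
  rw [Fin.addCases_left]
  rfl

theorem s33tf_Psi_right (m : ℕ)
    (y : Fin m → ↥(Submodule.torsionBy ℤ (JZero (M' * p)) ((p : ℤ) ^ k))) (i : Fin m) :
    s33tf_Psi M' p k m y (Fin.natAdd m i) = s33tf_psi2 M' p k (y i) := by
  show (Fin.addCases
    (motive := fun _ => (Fin m → ↥(Submodule.torsionBy ℤ (JZero (M' * p)) ((p : ℤ) ^ k))) →+
      ↥(Submodule.torsionBy ℤ (JZero M') ((p : ℤ) ^ k)))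
    (fun i => (s33tf_psi1 M' p k).comp (Pi.evalAddMonoidHom _ i))
    (fun i => (s33tf_psi2 M' p k).comp (Pi.evalAddMonoidHom _ i)) (Fin.natAdd m i)) y = _
  rw [Fin.addCases_right]
  rfl

theorem s33tf_Psi_smul (m : ℕ) (σ : ff_GQ)
    (y : Fin m → ↥(Submodule.torsionBy ℤ (JZero (M' * p)) ((p : ℤ) ^ k))) :
    s33tf_Psi M' p k m (σ • y) = σ • s33tf_Psi M' p k m y := by
  funext j
  refine Fin.addCases (fun i => ?_) (fun i => ?_) j
  · exact (s33tf_Psi_left M' p k m (σ • y) i).trans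
      ((s33tf_psi1_smul M' p k σ (y i)).trans
        (congrArg (fun z => σ • z) (s33tf_Psi_left M' p k m y i).symm))
  · exact (s33tf_Psi_right M' p k m (σ • y) i).trans
      ((s33tf_psi2_smul M' p k σ (y i)).trans
        (congrArg (fun z => σ • z) (s33tf_Psi_right M' p k m y i).symm))

theorem s33tf_Psi_eq_zero_iff (m : ℕ)
    (y : Fin m → ↥(Submodule.torsionBy ℤ (JZero (M' * p)) ((p : ℤ) ^ k))) :
    s33tf_Psi M' p k m y = 0 ↔
      ∀ i, s35p_P1J M' p (y i : JZero (M' * p)) = 0 ∧ s35p_P2J M' p (y i : JZero (M' * p)) = 0 := by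
  constructor
  · intro h i
    have h1 : s33tf_psi1 M' p k (y i) = 0 :=
      (s33tf_Psi_left M' p k m y i).symm.trans (congrFun h (Fin.castAdd m i))
    have h2 : s33tf_psi2 M' p k (y i) = 0 :=
      (s33tf_Psi_right M' p k m y i).symm.trans (congrFun h (Fin.natAdd m i))
    exact ⟨congrArg Subtype.val h1, congrArg Subtype.val h2⟩
  · intro h
    funext j
    refine Fin.addCases (fun i => ?_) (fun i => ?_) j
    · exact (s33tf_Psi_left M' p k m y i).trans (Subtype.ext (h i).1)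
    · exact (s33tf_Psi_right M' p k m y i).trans (Subtype.ext (h i).2)

end Psi

/-! ### (F3) coordinates of the augmentation subgroup -/

section Coord

variable (N p k m : ℕ) [NeZero N] (P : ValuationSubring ff_Qb)

/-- the `i`-th coordinate `G1 → J₀(N)` of a subgroup of `J₀(N)[p ^ k] ^ m` -/
def s33tf_coord (G1 : AddSubgroup (Fin m → ↥(Submodule.torsionBy ℤ (JZero N) ((p : ℤ) ^ k))))
    (i : Fin m) : ↥G1 →+ JZero N where
  toFun y := ((y.1 i : ↥(Submodule.torsionBy ℤ (JZero N) ((p : ℤ) ^ k))) : JZero N)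
  map_zero' := rfl
  map_add' _ _ := rfl

theorem s33tf_coord_smul
    (G1 : AddSubgroup (Fin m → ↥(Submodule.torsionBy ℤ (JZero N) ((p : ℤ) ^ k))))
    (hG1 : ∀ σ : ff_GQ, ∀ w ∈ G1, σ • w ∈ G1) (i : Fin m) :
    letI := s33o_subAct G1 hG1
    ∀ (σ : ↥(P.inertiaSubgroupIn ℚ)) (y : ↥G1),
      s33tf_coord N p k m G1 i (σ • y) = σ • s33tf_coord N p k m G1 i y := by
  intro σ y
  rfl

theorem s33tf_coord_tors
    (G1 : AddSubgroup (Fin m → ↥(Submodule.torsionBy ℤ (JZero N) ((p : ℤ) ^ k))))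
    (i : Fin m) (y : ↥G1) : p ^ k • s33tf_coord N p k m G1 i y = 0 := by
  have h1 : ((p : ℤ) ^ k) • ((y.1 i : ↥(Submodule.torsionBy ℤ (JZero N) ((p : ℤ) ^ k))) : JZero N)
      = 0 := (Submodule.mem_torsionBy_iff _ _).mp (y.1 i).2
  have h2 : ((p : ℤ) ^ k) • ((y.1 i : ↥(Submodule.torsionBy ℤ (JZero N) ((p : ℤ) ^ k))) : JZero N)
      = (p ^ k : ℕ) • ((y.1 i : ↥(Submodule.torsionBy ℤ (JZero N) ((p : ℤ) ^ k))) : JZero N) := by
    rw [← natCast_zsmul]; push_cast; rfl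
  exact h2.symm.trans h1

theorem s33tf_coord_inj
    (G1 : AddSubgroup (Fin m → ↥(Submodule.torsionBy ℤ (JZero N) ((p : ℤ) ^ k))))
    (y : ↥G1) (h : ∀ i, s33tf_coord N p k m G1 i y = 0) : y = 0 :=
  Subtype.ext (funext fun i => Subtype.ext (h i))

theorem s33tf_pow_smul
    (G1 : AddSubgroup (Fin m → ↥(Submodule.torsionBy ℤ (JZero N) ((p : ℤ) ^ k))))
    (y : ↥G1) : p ^ k • y = 0 :=
  s33tf_coord_inj N p k m G1 _ fun i =>
    (map_nsmul (s33tf_coord N p k m G1 i) (p ^ k) y).trans (s33tf_coord_tors N p k m G1 i y)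

set_option maxHeartbeats 1000000 in
/-- **(F3)** -/
theorem s33tf_coord_mem
    (G1 : AddSubgroup (Fin m → ↥(Submodule.torsionBy ℤ (JZero N) ((p : ℤ) ^ k))))
    (hG1 : ∀ σ : ff_GQ, ∀ w ∈ G1, σ • w ∈ G1) (i : Fin m) :
    letI := s33o_subAct G1 hG1
    ∀ y ∈ s33a_aug ↥(P.inertiaSubgroupIn ℚ) ↥G1,
      s33tf_coord N p k m G1 i y ∈ AddSubgroup.closure
        {x : JZero N | ∃ σ ∈ P.inertiaSubgroupIn ℚ, ∃ z : JZero N,
          p ^ k • z = 0 ∧ x = σ • z - z} := by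
  letI := s33o_subAct G1 hG1
  intro y hy
  have h1 : s33tf_coord N p k m G1 i y ∈
      (s33a_aug ↥(P.inertiaSubgroupIn ℚ) ↥G1).map (s33tf_coord N p k m G1 i) :=
    AddSubgroup.mem_map_of_mem _ hy
  unfold s33a_aug at h1
  rw [AddMonoidHom.map_closure] at h1
  refine AddSubgroup.closure_mono ?_ h1
  rintro _ ⟨x, ⟨σ, z, rfl⟩, rfl⟩
  refine ⟨σ.1, σ.2, s33tf_coord N p k m G1 i z, s33tf_coord_tors N p k m G1 i z, ?_⟩
  exact (map_sub (s33tf_coord N p k m G1 i) (σ • z) z).trans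
    (congrArg (fun w => w - s33tf_coord N p k m G1 i z)
      (s33tf_coord_smul N p k m P G1 hG1 i σ z))

end Coord

/-! ### the adapters to [ALG-KEY] -/

section Adapters

variable (M' p : ℕ) [NeZero M'] [NeZero p] [Fact p.Prime]

theorem s33tf_rA_eq_aA {Γ : Type} [Group Γ] {G : Type} [AddCommGroup G] [DistribMulAction Γ G]
    (τ0 : Γ) (c : ℤ) : (s33r_A τ0 c : G →+ G) = s33a_A τ0 c := rfl

/-- **(OLD) adapter**: the hypothesis `hold` of `s33a_key`, for `ψ = Ψ ∘ (G1 ↪ J₀(N)[p ^ k] ^ m)`. -/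
theorem s33tf_old (hp2 : p ≠ 2) (hpM : ¬ p ∣ M') (k m K : ℕ)
    (P : ValuationSubring ff_Qb) (hP : P.LiesOverPrime p)
    (G1 : AddSubgroup (Fin m → ↥(Submodule.torsionBy ℤ (JZero (M' * p)) ((p : ℤ) ^ k))))
    (hG1 : ∀ σ : ff_GQ, ∀ w ∈ G1, σ • w ∈ G1)
    (Fil : ℕ → AddSubgroup (Fin m → ↥(Submodule.torsionBy ℤ (JZero (M' * p)) ((p : ℤ) ^ k))))
    (h0 : Fil 0 = G1) (hK : Fil K = ⊥)
    (hstab : ∀ (j : ℕ) (g : ff_GQ), ∀ y ∈ Fil j, g • y ∈ Fil j)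
    (hr : ∀ j : ℕ, ∀ y ∈ Fil j, p • y ∈ Fil (j + 1))
    (τ0 : ↥(P.inertiaSubgroupIn ℚ)) (c : ℤ)
    (hA : ∀ (j : ℕ) (σ : ↥(P.inertiaSubgroupIn ℚ)), ∀ z ∈ Fil j,
      s33a_A τ0 c (σ • z - z) ∈ Fil (j + 1)) :
    letI := s33o_subAct G1 hG1
    ∀ (σ : ↥(P.inertiaSubgroupIn ℚ)) (y : ↥G1),
      (⇑(s33a_A (G := Fin (m + m) → ↥(Submodule.torsionBy ℤ (JZero M') ((p : ℤ) ^ k))) τ0 c))^[K]
        (σ • s33tf_Psi M' p k m y.1 - s33tf_Psi M' p k m y.1) = 0 := by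
  letI := s33o_subAct G1 hG1
  intro σ y
  let ψ : ↥G1 →+ (Fin (m + m) → ↥(Submodule.torsionBy ℤ (JZero M') ((p : ℤ) ^ k))) :=
    (s33tf_Psi M' p k m).comp G1.subtype
  have hψ : ∀ (g : ff_GQ) (x : ↥G1), ψ (g • x) = g • ψ x := fun g x =>
    s33tf_Psi_smul M' p k m g x.1
  have hψΓ : ∀ (g : ↥(P.inertiaSubgroupIn ℚ)) (x : ↥G1), ψ (g • x) = g • ψ x := fun g x =>
    hψ g.1 x
  have key : ψ ((⇑(s33r_A τ0 c))^[K] (σ • y - y)) = 0 :=
    s33o_old_ker M' p hp2 hpM k (m + m) ψ hψ P hP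
      (fun j => (Fil j).comap G1.subtype)
      (fun j g x hx => hstab j g.1 x.1 hx)
      (top_unique fun x _ => h0.ge x.2)
      (N := K)
      (fun x hx => by
        have h2 : x = 0 := Subtype.ext (AddSubgroup.mem_bot.mp (hK.le hx))
        exact (congrArg ψ h2).trans (map_zero ψ))
      (fun j x hx => hr j x.1 hx) τ0 c
      (fun j g z hz => hA j g z.1 hz)
      (x := σ • y - y) (AddSubgroup.subset_closure ⟨σ, y, rfl⟩)
  have h1 : ψ ((⇑(s33r_A τ0 c))^[K] (σ • y - y)) = (⇑(s33r_A τ0 c))^[K] (ψ (σ • y - y)) :=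
    s33o_A_iter_map ψ hψΓ τ0 c K (σ • y - y)
  have h2 : ψ (σ • y - y) = σ • s33tf_Psi M' p k m y.1 - s33tf_Psi M' p k m y.1 :=
    (map_sub ψ (σ • y) y).trans (congrArg (fun z => z - ψ y) (hψΓ σ y))
  calc (⇑(s33a_A (G := Fin (m + m) → ↥(Submodule.torsionBy ℤ (JZero M') ((p : ℤ) ^ k))) τ0 c))^[K]
        (σ • s33tf_Psi M' p k m y.1 - s33tf_Psi M' p k m y.1)
      = (⇑(s33r_A τ0 c))^[K] (ψ (σ • y - y)) := congrArg _ h2.symm
    _ = ψ ((⇑(s33r_A τ0 c))^[K] (σ • y - y)) := h1.symm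
    _ = 0 := key

/-- **[ALG-KEY] at finite level**: nilpotence of `𝒜 = τ0 - c` on `(I - 1) G` for every quotient
`f : G1 ↠ G` of a stable subgroup `G1` of `J₀(M' p)[p ^ k] ^ m` carrying a filtration as produced by
[S33-CAR+]; `hgeo` is the conclusion of `s33g_nilp_fam1` (`S33/Geo/Nilp.lean`) for
`ev := s33tf_coord`, `hev := s33tf_coord_smul`, `hinj := s33tf_coord_inj`, `hpn := s33tf_pow_smul`,
`hψ := (s33tf_Psi_eq_zero_iff ..).mp`. -/
theorem s33tf_key (hp2 : p ≠ 2) (hpM : ¬ p ∣ M') (k m K k1 : ℕ)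
    (P : ValuationSubring ff_Qb) (hP : P.LiesOverPrime p)
    (G1 : AddSubgroup (Fin m → ↥(Submodule.torsionBy ℤ (JZero (M' * p)) ((p : ℤ) ^ k))))
    (hG1 : ∀ σ : ff_GQ, ∀ w ∈ G1, σ • w ∈ G1)
    (Fil : ℕ → AddSubgroup (Fin m → ↥(Submodule.torsionBy ℤ (JZero (M' * p)) ((p : ℤ) ^ k))))
    (h0 : Fil 0 = G1) (hK : Fil K = ⊥)
    (hstab : ∀ (j : ℕ) (g : ff_GQ), ∀ y ∈ Fil j, g • y ∈ Fil j)
    (hr : ∀ j : ℕ, ∀ y ∈ Fil j, p • y ∈ Fil (j + 1))
    (τ0 : ↥(P.inertiaSubgroupIn ℚ)) (c : ℤ)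
    (hA : ∀ (j : ℕ) (σ : ↥(P.inertiaSubgroupIn ℚ)), ∀ z ∈ Fil j,
      s33a_A τ0 c (σ • z - z) ∈ Fil (j + 1))
    (hgeo : letI := s33o_subAct G1 hG1
      ∀ y ∈ s33a_aug ↥(P.inertiaSubgroupIn ℚ) ↥G1, s33tf_Psi M' p k m y.1 = 0 →
        (⇑(s33a_A (G := ↥G1) τ0 c))^[k1] y = 0)
    {G : Type*} [AddCommGroup G] [DistribMulAction ↥(P.inertiaSubgroupIn ℚ) G]
    (f : ↥G1 →+ G) (hf : Function.Surjective f)
    (hfe : ∀ (σ : ↥(P.inertiaSubgroupIn ℚ)) (y : ↥G1),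
      f ⟨σ.1 • y.1, hG1 σ.1 y.1 y.2⟩ = σ • f y)
    (σ : ↥(P.inertiaSubgroupIn ℚ)) (x : G) :
    (⇑(s33a_A (G := G) τ0 c))^[K + k1] (σ • x - x) = 0 := by
  letI := s33o_subAct G1 hG1
  exact s33a_key f hf (fun σ y => hfe σ y)
    ((s33tf_Psi M' p k m).comp G1.subtype)
    (fun g y => s33tf_Psi_smul M' p k m g.1 y.1) τ0 c K k1
    (s33tf_old M' p hp2 hpM k m K P hP G1 hG1 Fil h0 hK hstab hr τ0 c hA)
    hgeo σ x

end Adapters

end Fermat.Agent.S33
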