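/-
Project S33 (ordinary at `p ∥ N`), cell [S33-TOP], parts (TOP-C), (TOP-NILP) (helper19).
Prefix `s33tr_`.  Namespace `Fermat.Agent.S33`.

* `s33tr_eps_sub_mem` : `ε τ ≡ k₀ mod 𝔪_T` when `τ μ = μ ^ k₀` on `μ_p`;
* `s33tr_intCast_mat` : the integer matrix `(c : M₂(R))` is `(c : R) • 1`;
* `s33tr_blr_hyp` : **(TOP-C)** the identity `(ρ̄ τ - k₀)(ρ̄ σ - 1) = 0` of `M₂(T / 𝔪_T)` for
  `τ, σ ∈ I_P`, `ρ̄ = ffc_rm_rho1 H.ρ 𝔪_T`, in the shape of the hypothesis of the (BLR-step) clause of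
  `s33c_main_Q`;
* `s33tr_nilp_of` : **(TOP-NILP)** nilpotence of `𝒜 = τ0 - c` on the augmentation of `V / I V`
  (`ffc_rm_action`; the output of [ALG-KEY]) in the End-power form of `s33a_top` / `s33s_Nilp`.
-/
import Mathlib
import Fermat.Agent.S33.Top.Loc
import Fermat.Agent.S33.Alg

set_option autoImplicit false
set_option linter.unusedSectionVars false
set_option linter.style.haveILetI false

noncomputable section

namespace Fermat.Agent.S33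

open IsLocalRing TensorProduct Fermat.Agent.FF Fermat.Agent.JT3 Fermat.Agent.SS

variable {p : ℕ} {N : ℕ} [NeZero N] {S : Finset ℕ}
  {𝒪 : Type} [CommRing 𝒪] [IsDomain 𝒪] [IsDiscreteValuationRing 𝒪]
  [IsAdicComplete (IsLocalRing.maximalIdeal 𝒪) 𝒪]
  {θ : CuspForm.heckeAlgebra N 2 (↑S : Set ℕ) →+* IsLocalRing.ResidueField 𝒪}
  {T : Type} [CommRing T] [IsLocalRing T] [IsNoetherianRing T]
  [IsAdicComplete (IsLocalRing.maximalIdeal T) T] [Algebra 𝒪 T] [IsLocalHom (algebraMap 𝒪 T)]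
  [Module.Finite 𝒪 T] [Module.Free 𝒪 T]

variable (H : CuspForm.HeckeGaloisRepDatum N (↑S : Set ℕ) 𝒪 θ T)

omit [IsNoetherianRing T] in
/-- `ε τ ≡ k₀ mod 𝔪_T`. -/
theorem s33tr_eps_sub_mem [Fact p.Prime] (hpT : (p : T) ∈ maximalIdeal T) (τ : ff_GQ) (k₀ : ℕ)
    (h : ∀ μ : ff_Qb, μ ^ p = 1 → τ μ = μ ^ k₀) :
    cya_eps p T hpT τ - (k₀ : T) ∈ maximalIdeal T := by
  have h1 := cya_eps_spec p T hpT 1 τ k₀ (fun μ hμ => h μ (by rwa [pow_one] at hμ))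
  have h2 := cya_span_le p T hpT 1 h1
  rwa [pow_one] at h2

theorem s33tr_intCast_mat {R : Type*} [CommRing R] (c : ℤ) :
    ((c : ℤ) : Matrix (Fin 2) (Fin 2) R) = (c : R) • (1 : Matrix (Fin 2) (Fin 2) R) := by
  rw [Matrix.smul_one_eq_diagonal]
  rfl

/-- **(TOP-C)**: the identity `(ρ̄ τ - k₀)(ρ̄ σ - 1) = 0` in `M₂(T / 𝔪_T)`. -/
theorem s33tr_blr_hyp [Fact p.Prime] (hpT : (p : T) ∈ maximalIdeal T) (hpS : p ∈ S)
    (hNS : ∀ q : ℕ, q.Prime → q ∣ N → q ∈ S)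
    (hres : (GaloisRepAdic.ofResidualGaloisRep H.ρ.residual).IsOrdinaryAt p)
    (P : ValuationSubring ff_Qb) (hP : P.LiesOverPrime p)
    {τ σ : ff_GQ} (hτ : τ ∈ P.inertiaSubgroupIn ℚ) (hσ : σ ∈ P.inertiaSubgroupIn ℚ)
    {k₀ : ℕ} (h : ∀ μ : ff_Qb, μ ^ p = 1 → τ μ = μ ^ k₀) :
    (ffc_rm_rho1 H.ρ (maximalIdeal T) τ -
        (((k₀ : ℕ) : ℤ) : Matrix (Fin 2) (Fin 2) (T ⧸ maximalIdeal T))) *
      (ffc_rm_rho1 H.ρ (maximalIdeal T) σ - 1) = 0 := by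
  have h1 := s33tl_ident_mat H hpT hpS hNS hres P hP hτ hσ
  have h2 : Ideal.Quotient.mk (maximalIdeal T) (cya_eps p T hpT τ) =
      (((k₀ : ℕ) : ℤ) : T ⧸ maximalIdeal T) := by
    rw [Int.cast_natCast, ← map_natCast (Ideal.Quotient.mk (maximalIdeal T)), ← sub_eq_zero,
      ← map_sub, Ideal.Quotient.eq_zero_iff_mem]
    exact s33tr_eps_sub_mem hpT τ k₀ h
  rw [s33tr_intCast_mat, ← h2]
  exact h1

/-! ### (TOP-NILP) -/

section Nilp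

variable {T' : Type} [CommRing T'] [IsLocalRing T'] (ρ : GaloisRepAdic T') (I : Ideal T')

theorem s33tr_smul_mk (σ : ff_GQ) (v : ρ.V) :
    letI := ffc_rm_action ρ I
    σ • (Submodule.Quotient.mk v : ρ.V ⧸ I • (⊤ : Submodule T' ρ.V)) =
      Submodule.Quotient.mk (ρ.ρ σ v) := by
  rw [ffc_rm_smul_def, GaloisRepAdic.levelAction, Submodule.mapQ_apply]

theorem s33tr_A_mk (In : Subgroup ff_GQ) (τ0 : ↥In) (c : ℤ) (v : ρ.V) :
    letI := ffc_rm_action ρ I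
    s33a_A τ0 c (Submodule.Quotient.mk v : ρ.V ⧸ I • (⊤ : Submodule T' ρ.V)) =
      Submodule.Quotient.mk ((ρ.ρ τ0.1 - (c : T') • (1 : Module.End T' ρ.V)) v) := by
  letI := ffc_rm_action ρ I
  have h1 : (Submodule.Quotient.mk (c • v) : ρ.V ⧸ I • (⊤ : Submodule T' ρ.V)) =
      c • Submodule.Quotient.mk v := map_zsmul (Submodule.mkQ (I • (⊤ : Submodule T' ρ.V))) c v
  rw [s33a_A_apply, LinearMap.sub_apply, LinearMap.smul_apply, Module.End.one_apply,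
    Submodule.Quotient.mk_sub, Int.cast_smul_eq_zsmul, h1]
  rfl

theorem s33tr_A_iter_mk (In : Subgroup ff_GQ) (τ0 : ↥In) (c : ℤ) (k : ℕ) (v : ρ.V) :
    letI := ffc_rm_action ρ I
    (⇑(s33a_A (G := ρ.V ⧸ I • (⊤ : Submodule T' ρ.V)) τ0 c))^[k] (Submodule.Quotient.mk v) =
      Submodule.Quotient.mk (((ρ.ρ τ0.1 - (c : T') • (1 : Module.End T' ρ.V)) ^ k) v) := by
  letI := ffc_rm_action ρ I
  induction k generalizing v with
  | zero => rfl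
  | succ k ih =>
    rw [Function.iterate_succ_apply, s33tr_A_mk, ih, pow_succ, Module.End.mul_apply]

/-- **(TOP-NILP)** -/
theorem s33tr_nilp_of (In : Subgroup ff_GQ) (τ0 : ↥In) (c : ℤ) (k : ℕ)
    (h : letI := ffc_rm_action ρ I
      ∀ (σ : ↥In) (x : ρ.V ⧸ I • (⊤ : Submodule T' ρ.V)),
        (⇑(s33a_A (G := ρ.V ⧸ I • (⊤ : Submodule T' ρ.V)) τ0 c))^[k] (σ • x - x) = 0) :
    ∀ σ ∈ In, ∀ v : ρ.V,
      ((ρ.ρ τ0.1 - (c : T') • (1 : Module.End T' ρ.V)) ^ k) (ρ.ρ σ v - v) ∈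
        I • (⊤ : Submodule T' ρ.V) := by
  letI := ffc_rm_action ρ I
  intro σ hσ v
  have h1 := h ⟨σ, hσ⟩ (Submodule.Quotient.mk v)
  have h2 : (⟨σ, hσ⟩ : ↥In) • (Submodule.Quotient.mk v : ρ.V ⧸ I • (⊤ : Submodule T' ρ.V)) =
      Submodule.Quotient.mk (ρ.ρ σ v) := s33tr_smul_mk ρ I σ v
  rw [h2, ← Submodule.Quotient.mk_sub, s33tr_A_iter_mk, Submodule.Quotient.mk_eq_zero] at h1
  exact h1

end Nilp

end Fermat.Agent.S33
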