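/-
Project S33 (ordinary at `p ∥ N`), cell [S33-TOP], leaf (TOP-τ0) (helper5).  Prefix `s33t_`.

From the residual ordinarity `hres` of a Hecke–Galois datum `H` and the ramification of the mod `p`
cyclotomic character (`s44c_chiRam`, frame free) we produce, for every place `P` of `ℚ̄` over `p`,
an element `τ0` of the inertia group with `χ̄(τ0) ≠ 1` such that in `End(V̄)`
  `(ρ̄(τ0) - χ̄(τ0)) (ρ̄(σ) - 1) = 0`  for every `σ` in the inertia group.
(`det ρ̄ = χ̄` by `sst_det_eq_eps`; `ρ̄(τ0)` acts on the line `L̄` of `hres` by `det ρ̄(τ0)`.)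
-/
import Mathlib
import Fermat.Statements.S33
import Fermat.Agent.SS.Transfer
import Fermat.Agent.S44.ChiRam.Main

set_option autoImplicit false
set_option linter.style.haveILetI false
set_option linter.unusedSectionVars false

noncomputable section

namespace Fermat.Agent.S33

open IsLocalRing Fermat.Agent.JT3 Fermat.Agent.SS Fermat.Agent.S44

local notation "GQ" => (AlgebraicClosure ℚ ≃ₐ[ℚ] AlgebraicClosure ℚ)
local notation "Qbar" => AlgebraicClosure ℚ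

section LinAlg

variable {k : Type*} [Field k] {V : Type*} [AddCommGroup V] [Module k V]

/-- an endomorphism which stabilises the line `k b₀` and is the identity modulo it acts on the line
by its determinant. -/
theorem s33t_line_det (b : Module.Basis (Fin 2) k V) (f : Module.End k V)
    (h0 : f (b 0) ∈ k ∙ b 0) (h1 : f (b 1) - b 1 ∈ k ∙ b 0) :
    f (b 0) = LinearMap.det f • b 0 := by
  obtain ⟨a, ha⟩ := Submodule.mem_span_singleton.1 h0
  obtain ⟨d, hd⟩ := Submodule.mem_span_singleton.1 h1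
  have hf0 : f (b 0) = a • b 0 := ha.symm
  have hf1 : f (b 1) = d • b 0 + b 1 := by rw [hd]; abel
  have hdet : LinearMap.det f = a := by
    rw [← LinearMap.det_toMatrix b f, Matrix.det_fin_two]
    simp only [LinearMap.toMatrix_apply, hf0, hf1, map_add, map_smul, Module.Basis.repr_self,
      Finsupp.smul_apply, Finsupp.add_apply, Finsupp.single_apply, smul_eq_mul]
    simp
  rw [hdet, hf0]

end LinAlg

variable {p : ℕ} {N : ℕ} [NeZero N] {S : Finset ℕ}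
  {𝒪 : Type} [CommRing 𝒪] [IsDomain 𝒪] [IsDiscreteValuationRing 𝒪]
  [IsAdicComplete (IsLocalRing.maximalIdeal 𝒪) 𝒪]
  {θ : CuspForm.heckeAlgebra N 2 (↑S : Set ℕ) →+* IsLocalRing.ResidueField 𝒪}
  {T : Type} [CommRing T] [IsLocalRing T] [IsNoetherianRing T]
  [IsAdicComplete (IsLocalRing.maximalIdeal T) T] [Algebra 𝒪 T] [IsLocalHom (algebraMap 𝒪 T)]
  [Module.Finite 𝒪 T] [Module.Free 𝒪 T]

/-- `p ∈ 𝔪_T`. -/
theorem s33t_p_mem (hp𝒪 : (p : 𝒪) ∈ IsLocalRing.maximalIdeal 𝒪) :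
    (p : T) ∈ IsLocalRing.maximalIdeal T := by
  rw [IsLocalRing.mem_maximalIdeal, mem_nonunits_iff] at hp𝒪 ⊢
  intro hu
  apply hp𝒪
  have h : algebraMap 𝒪 T (p : 𝒪) = (p : T) := map_natCast _ _
  rw [← h] at hu
  exact IsUnit.of_map (algebraMap 𝒪 T) _ hu

/-- the residue field of `T` has characteristic `p`. -/
theorem s33t_charP (hp : p.Prime) (hpT : (p : T) ∈ IsLocalRing.maximalIdeal T) :
    CharP (IsLocalRing.ResidueField T) p := by
  have h0 : ((p : ℕ) : IsLocalRing.ResidueField T) = 0 := by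
    have : (IsLocalRing.residue T) (p : T) = 0 := (IsLocalRing.residue_eq_zero_iff _).2 hpT
    rwa [map_natCast] at this
  haveI : Fact p.Prime := ⟨hp⟩
  exact (CharP.charP_iff_prime_eq_zero hp).2 h0

/-- `det ρ̄ = χ̄`. -/
theorem s33t_det_residual [Fact p.Prime]
    (H : CuspForm.HeckeGaloisRepDatum N (↑S : Set ℕ) 𝒪 θ T)
    (hpT : (p : T) ∈ IsLocalRing.maximalIdeal T) (hpS : p ∈ S)
    (hNS : ∀ q : ℕ, q.Prime → q ∣ N → q ∈ S) (g : GQ) :
    LinearMap.det (H.ρ.residual.ρ g) = IsLocalRing.residue T (cya_eps p T hpT g) := by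
  have h1 := LinearMap.det_baseChange (A := IsLocalRing.ResidueField T) (H.ρ.ρ g)
  rw [sst_det_eq_eps H hpT hpS hNS g] at h1
  exact h1

/-- **(TOP-τ0)**. -/
theorem s33t_tau0 (hp : p.Prime) (hp2 : p ≠ 2)
    (hp𝒪 : (p : 𝒪) ∈ IsLocalRing.maximalIdeal 𝒪) (hN : p ∣ N ∧ ¬ p ^ 2 ∣ N)
    (hNS : ∀ q : ℕ, q.Prime → q ∣ N → q ∈ S)
    (H : CuspForm.HeckeGaloisRepDatum N (↑S : Set ℕ) 𝒪 θ T)
    (hres : (GaloisRepAdic.ofResidualGaloisRep H.ρ.residual).IsOrdinaryAt p)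
    (P : ValuationSubring Qbar) (hP : P.LiesOverPrime p) :
    haveI : Fact p.Prime := ⟨hp⟩
    ∃ τ0 ∈ P.inertiaSubgroupIn ℚ,
      PadicInt.toZModPow 1 (cya_chi p τ0) ≠ 1 ∧
      IsLocalRing.residue T (cya_eps p T (s33t_p_mem hp𝒪) τ0) ≠ 1 ∧
      ∀ σ ∈ P.inertiaSubgroupIn ℚ,
        (H.ρ.residual.ρ τ0 - (IsLocalRing.residue T (cya_eps p T (s33t_p_mem hp𝒪) τ0)) • 1)
          * (H.ρ.residual.ρ σ - 1) = 0 := by
  haveI : Fact p.Prime := ⟨hp⟩
  have hpT : (p : T) ∈ IsLocalRing.maximalIdeal T := s33t_p_mem hp𝒪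
  have hpS : p ∈ S := hNS p hp hN.1
  haveI : NeZero p := ⟨hp.ne_zero⟩
  obtain ⟨ζ, hζ⟩ := HasEnoughRootsOfUnity.exists_primitiveRoot Qbar p
  obtain ⟨τ0, hτ0, k₀, hk₀, hne⟩ := s44c_chiRam p hp2 P hP ζ hζ
  -- `χ(τ0) ≡ k₀ mod p`
  have hall : ∀ μ : Qbar, μ ^ p ^ 1 = 1 → τ0 μ = μ ^ k₀ := by
    intro μ hμ
    rw [pow_one] at hμ
    obtain ⟨i, -, rfl⟩ := hζ.eq_pow_of_pow_eq_one hμ
    rw [map_pow, hk₀, ← pow_mul, ← pow_mul, mul_comm]
  have hχ : PadicInt.toZModPow 1 (cya_chi p τ0) = (k₀ : ZMod (p ^ 1)) :=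
    cya_chi_toZModPow p τ0 hall
  have hk1 : ¬ (p : ℤ) ∣ (k₀ : ℤ) - 1 := by
    intro h
    apply hne
    rw [Int.modEq_iff_dvd]
    have : (1 : ℤ) - (k₀ : ℤ) = -((k₀ : ℤ) - 1) := by ring
    rw [this]
    exact (dvd_neg).2 h
  refine ⟨τ0, hτ0, ?_, ?_, ?_⟩
  · rw [hχ]
    intro h1
    apply hk1
    have h2 : ((k₀ : ℤ) : ZMod (p ^ 1)) = ((1 : ℤ) : ZMod (p ^ 1)) := by
      rw [Int.cast_natCast, Int.cast_one]; exact h1
    have h3 := (ZMod.intCast_eq_intCast_iff_dvd_sub _ _ _).1 h2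
    rw [pow_one] at h3
    have : (k₀ : ℤ) - 1 = -(1 - (k₀ : ℤ)) := by ring
    rw [this]
    exact (dvd_neg).2 h3
  · intro h1
    apply hk1
    have hspec := cya_eps_spec p T hpT 1 τ0 k₀ hall
    have hmem : cya_eps p T hpT τ0 - (k₀ : T) ∈ IsLocalRing.maximalIdeal T := by
      have := cya_span_le p T hpT 1 hspec
      rwa [pow_one] at this
    have h2 : IsLocalRing.residue T (cya_eps p T hpT τ0) = ((k₀ : ℕ) : IsLocalRing.ResidueField T) := by
      have := (IsLocalRing.residue_eq_zero_iff _).2 hmem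
      rw [map_sub, map_natCast, sub_eq_zero] at this
      exact this
    rw [h2] at h1
    haveI := s33t_charP (T := T) hp hpT
    have h3 : (((k₀ : ℤ) - 1 : ℤ) : IsLocalRing.ResidueField T) = 0 := by
      push_cast
      rw [h1, sub_self]
    exact (CharP.intCast_eq_zero_iff (IsLocalRing.ResidueField T) p _).1 h3
  · intro σ hσ
    set ρ' := GaloisRepAdic.ofResidualGaloisRep H.ρ.residual with hρ'
    obtain ⟨L, ⟨b, hL⟩, hD, hI⟩ := hres P hP
    have hτ0D : τ0 ∈ P.decompositionSubgroup ℚ := by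
      obtain ⟨τ, -, rfl⟩ := hτ0
      exact τ.2
    change (ρ'.ρ τ0 - (IsLocalRing.residue T (cya_eps p T hpT τ0)) • 1) * (ρ'.ρ σ - 1) = 0
    have hb0 : b 0 ∈ L := by rw [hL]; exact Submodule.mem_span_singleton_self _
    have h0 : ρ'.ρ τ0 (b 0) ∈ (IsLocalRing.ResidueField T) ∙ b 0 := by
      rw [← hL]; exact hD τ0 hτ0D (b 0) hb0
    have h1 : ρ'.ρ τ0 (b 1) - b 1 ∈ (IsLocalRing.ResidueField T) ∙ b 0 := by
      rw [← hL]; exact hI τ0 hτ0 (b 1)
    have hfb0 := s33t_line_det b (ρ'.ρ τ0) h0 h1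
    have hdet : LinearMap.det (ρ'.ρ τ0) = IsLocalRing.residue T (cya_eps p T hpT τ0) :=
      s33t_det_residual H hpT hpS hNS τ0
    rw [hdet] at hfb0
    ext v
    simp only [Module.End.mul_apply, LinearMap.sub_apply, Module.End.one_apply,
      LinearMap.smul_apply, LinearMap.zero_apply]
    have hw : ρ'.ρ σ v - v ∈ L := hI σ hσ v
    rw [hL] at hw
    obtain ⟨t, ht⟩ := Submodule.mem_span_singleton.1 hw
    rw [← ht, map_smul, hfb0, smul_comm, sub_self]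

/-- **companion of (TOP-τ0)**: the `k`-span of `(I_P - 1) V̄` is the line of `hres`; in particular
it is generated by the first vector of a basis and is stable under the decomposition group. -/
theorem s33t_line (hp : p.Prime) (hp2 : p ≠ 2)
    (hp𝒪 : (p : 𝒪) ∈ IsLocalRing.maximalIdeal 𝒪) (hN : p ∣ N ∧ ¬ p ^ 2 ∣ N)
    (hNS : ∀ q : ℕ, q.Prime → q ∣ N → q ∈ S)
    (H : CuspForm.HeckeGaloisRepDatum N (↑S : Set ℕ) 𝒪 θ T)
    (hres : (GaloisRepAdic.ofResidualGaloisRep H.ρ.residual).IsOrdinaryAt p)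
    (P : ValuationSubring Qbar) (hP : P.LiesOverPrime p) :
    ∃ b : Module.Basis (Fin 2) (IsLocalRing.ResidueField T)
        (GaloisRepAdic.ofResidualGaloisRep H.ρ.residual).V,
      Submodule.span (IsLocalRing.ResidueField T)
        {w : (GaloisRepAdic.ofResidualGaloisRep H.ρ.residual).V |
          ∃ σ ∈ P.inertiaSubgroupIn ℚ, ∃ v : (GaloisRepAdic.ofResidualGaloisRep H.ρ.residual).V,
            w = (GaloisRepAdic.ofResidualGaloisRep H.ρ.residual).ρ σ v - v}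
          = (IsLocalRing.ResidueField T) ∙ b 0 ∧
      ∀ σ ∈ P.decompositionSubgroup ℚ, ∀ v ∈ (IsLocalRing.ResidueField T) ∙ b 0,
        (GaloisRepAdic.ofResidualGaloisRep H.ρ.residual).ρ σ v
          ∈ (IsLocalRing.ResidueField T) ∙ b 0 := by
  haveI : Fact p.Prime := ⟨hp⟩
  have hpT : (p : T) ∈ IsLocalRing.maximalIdeal T := s33t_p_mem hp𝒪
  have hpS : p ∈ S := hNS p hp hN.1
  obtain ⟨τ0, hτ0, -, hcb, -⟩ := s33t_tau0 hp hp2 hp𝒪 hN hNS H hres P hP
  set ρ' := GaloisRepAdic.ofResidualGaloisRep H.ρ.residual with hρ'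
  obtain ⟨L, ⟨b, hL⟩, hD, hI⟩ := hres P hP
  have hτ0D : τ0 ∈ P.decompositionSubgroup ℚ := by
    obtain ⟨τ, -, rfl⟩ := hτ0
    exact τ.2
  refine ⟨b, ?_, ?_⟩
  · apply le_antisymm
    · rw [Submodule.span_le]
      rintro w ⟨σ, hσ, v, rfl⟩
      rw [← hL]
      exact hI σ hσ v
    · rw [Submodule.span_singleton_le_iff_mem]
      have hb0 : b 0 ∈ L := by rw [hL]; exact Submodule.mem_span_singleton_self _
      have h0 : ρ'.ρ τ0 (b 0) ∈ (IsLocalRing.ResidueField T) ∙ b 0 := by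
        rw [← hL]; exact hD τ0 hτ0D (b 0) hb0
      have h1 : ρ'.ρ τ0 (b 1) - b 1 ∈ (IsLocalRing.ResidueField T) ∙ b 0 := by
        rw [← hL]; exact hI τ0 hτ0 (b 1)
      have hfb0 := s33t_line_det b (ρ'.ρ τ0) h0 h1
      have hdet : LinearMap.det (ρ'.ρ τ0) = IsLocalRing.residue T (cya_eps p T hpT τ0) :=
        s33t_det_residual H hpT hpS hNS τ0
      rw [hdet] at hfb0
      set cb := IsLocalRing.residue T (cya_eps p T hpT τ0) with hcbdef
      have hne : cb - 1 ≠ 0 := sub_ne_zero.2 hcb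
      have hmem : ρ'.ρ τ0 (b 0) - b 0 ∈ Submodule.span (IsLocalRing.ResidueField T)
          {w : ρ'.V | ∃ σ ∈ P.inertiaSubgroupIn ℚ, ∃ v : ρ'.V, w = ρ'.ρ σ v - v} :=
        Submodule.subset_span ⟨τ0, hτ0, b 0, rfl⟩
      have heq : b 0 = (cb - 1)⁻¹ • (ρ'.ρ τ0 (b 0) - b 0) := by
        have h2 : cb • b 0 - b 0 = (cb - 1) • b 0 := by rw [sub_smul, one_smul]
        rw [hfb0, h2, smul_smul, inv_mul_cancel₀ hne, one_smul]
      rw [heq]
      exact Submodule.smul_mem _ _ hmem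
  · intro σ hσ v hv
    rw [← hL] at hv ⊢
    exact hD σ hσ v hv

end Fermat.Agent.S33
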