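/-
Project S33 (ordinary at `p ∥ N`), cell [S33-TOP]: the final wiring (helper19; second writer, an
independent path next to `S33/Wiring.lean`).  Prefix `s33tm_`.  Namespace `Fermat.Agent.S33`.

* `s33tm_fin`  : for `N = M' p`, `n > 0`, `I = 𝔪_T ^ n`: `𝒜 = τ0 - k₀` is nilpotent on the augmentation
  `(I_P - 1)(V / I V)`  [`s33c_main_Q` (CAR+ at the Tate package, pushed to `J₀(N)[p ^ M] ^ m`) +
  `s33tf_key` ((OLD) through `s33o_old_ker`, [ALG-KEY] `s33a_key`) + `s33g_nilp_fam1` ((GEO)) +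
  `s33tr_blr_hyp` ((TOP-C))];
* `s33tm_nilp` : `s33s_Nilp H P τ0 k₀`;
* `s33tm_main` : the frozen statement S33 (`s33s_step1`).
-/
import Mathlib
import Fermat.Agent.S33.Top.Fin
import Fermat.Agent.S33.Top.Res
import Fermat.Agent.S33.Top.Step1
import Fermat.Agent.S33.Car.MainQ
import Fermat.Agent.S33.Geo.Nilp

set_option autoImplicit false
set_option linter.unusedSectionVars false
set_option linter.style.haveILetI false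

noncomputable section

namespace Fermat.Agent.S33

open IsLocalRing Fermat.Agent.FF Fermat.Agent.JT3 Fermat.Agent.SS Fermat.Agent.S35 ModularCurve

section Fin

variable {p : ℕ} {M' : ℕ} [NeZero M'] [NeZero p] [NeZero (M' * p)] {S : Finset ℕ}
  {𝒪 : Type} [CommRing 𝒪] [IsDomain 𝒪] [IsDiscreteValuationRing 𝒪]
  [IsAdicComplete (IsLocalRing.maximalIdeal 𝒪) 𝒪]
  {θ : CuspForm.heckeAlgebra (M' * p) 2 (↑S : Set ℕ) →+* IsLocalRing.ResidueField 𝒪}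
  {T : Type} [CommRing T] [IsLocalRing T] [IsNoetherianRing T]
  [IsAdicComplete (IsLocalRing.maximalIdeal T) T] [Algebra 𝒪 T] [IsLocalHom (algebraMap 𝒪 T)]
  [Module.Finite 𝒪 T] [Module.Free 𝒪 T]

/-- nilpotence of `𝒜 = τ0 - k₀` on `(I_P - 1)(V / 𝔪 ^ n V)`. -/
theorem s33tm_fin [Finite (ResidueField 𝒪)] [CharZero 𝒪] (hp : p.Prime) (hp2 : p ≠ 2)
    (hp𝒪 : (p : 𝒪) ∈ maximalIdeal 𝒪) (hpM : ¬ p ∣ M')
    (hNS : ∀ q : ℕ, q.Prime → q ∣ M' * p → q ∈ S)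
    (H : CuspForm.HeckeGaloisRepDatum (M' * p) (↑S : Set ℕ) 𝒪 θ T)
    (hres : (GaloisRepAdic.ofResidualGaloisRep H.ρ.residual).IsOrdinaryAt p)
    (P : ValuationSubring ff_Qb) (hP : P.LiesOverPrime p)
    (τ0 : ff_GQ) (hτ0 : τ0 ∈ P.inertiaSubgroupIn ℚ) (k₀ : ℕ)
    (hk₀ : ∀ μ : ff_Qb, μ ^ p = 1 → τ0 μ = μ ^ k₀) (n : ℕ) (hn : 0 < n) :
    letI := ffc_rm_action H.ρ (maximalIdeal T ^ n)
    ∃ k : ℕ, ∀ (σ : ↥(P.inertiaSubgroupIn ℚ))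
      (x : H.ρ.V ⧸ (maximalIdeal T ^ n) • (⊤ : Submodule T H.ρ.V)),
      (⇑(s33a_A (G := H.ρ.V ⧸ (maximalIdeal T ^ n) • (⊤ : Submodule T H.ρ.V))
        (⟨τ0, hτ0⟩ : ↥(P.inertiaSubgroupIn ℚ)) (k₀ : ℤ)))^[k] (σ • x - x) = 0 := by
  letI := ffc_rm_action H.ρ (maximalIdeal T ^ n)
  haveI : Fact p.Prime := ⟨hp⟩
  have hpT : (p : T) ∈ maximalIdeal T := by
    have h1 := map_nonunit (algebraMap 𝒪 T) (p : 𝒪) hp𝒪
    rwa [map_natCast] at h1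
  have hpS : p ∈ S := hNS p hp (dvd_mul_left p M')
  have hp2' : ¬ 2 ∣ p := (Nat.prime_dvd_prime_iff_eq Nat.prime_two hp).not.mpr (Ne.symm hp2)
  obtain ⟨M, m, K, G1, f', Fil, h0, hK, -, hstab, hr, hfs, hfe, hblr⟩ :=
    s33c_main_Q hp hp𝒪 hpS hNS H n hn
  have hG1 : ∀ σ : ff_GQ, ∀ w ∈ G1, σ • w ∈ G1 := fun σ w hw =>
    h0.le (hstab 0 σ w (h0.ge hw))
  letI := s33o_subAct G1 hG1
  refine ⟨K + M, fun σ x => ?_⟩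
  refine s33tf_key M' p hp2 hpM M m K M P hP G1 hG1 Fil h0 hK hstab hr
    (⟨τ0, hτ0⟩ : ↥(P.inertiaSubgroupIn ℚ)) (k₀ : ℤ) ?_ ?_
    ((ffc_rm_fV H.ρ (maximalIdeal T ^ n)).comp f')
    ((ffc_rm_fV_surjective H.ρ (maximalIdeal T ^ n)).comp hfs) ?_ σ x
  · -- (BLR-step)
    intro j g z hz
    exact hblr τ0 g.1 (k₀ : ℤ)
      (s33tr_blr_hyp H hpT hpS hNS hres P hP hτ0 g.2 hk₀) j z hz
  · -- (GEO)
    intro y hy hΨ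
    exact s33g_nilp_fam1 M' p P hp hpM hP hp2' M (⟨τ0, hτ0⟩ : ↥(P.inertiaSubgroupIn ℚ)) k₀ hk₀
      (s33tf_coord (M' * p) p M m G1)
      (fun i => s33tf_coord_smul (M' * p) p M m P G1 hG1 i)
      (s33tf_coord_inj (M' * p) p M m G1) (s33tf_pow_smul (M' * p) p M m G1) hy
      ((s33tf_Psi_eq_zero_iff M' p M m y.1).mp hΨ)
  · -- equivariance of `f`
    intro g y
    have h1 := hfe g.1 y (hG1 g.1 y.1 y.2)
    have h2 := ffc_rm_fV_equivariant H.ρ (maximalIdeal T ^ n) g.1 (f' y)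
    exact (congrArg (ffc_rm_fV H.ρ (maximalIdeal T ^ n)) h1).trans h2

/-- `s33s_Nilp` at level `N = M' p`. -/
theorem s33tm_nilp' [Finite (ResidueField 𝒪)] [CharZero 𝒪] (hp : p.Prime) (hp2 : p ≠ 2)
    (hp𝒪 : (p : 𝒪) ∈ maximalIdeal 𝒪) (hpM : ¬ p ∣ M')
    (hNS : ∀ q : ℕ, q.Prime → q ∣ M' * p → q ∈ S)
    (H : CuspForm.HeckeGaloisRepDatum (M' * p) (↑S : Set ℕ) 𝒪 θ T)
    (hres : (GaloisRepAdic.ofResidualGaloisRep H.ρ.residual).IsOrdinaryAt p)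
    (P : ValuationSubring ff_Qb) (hP : P.LiesOverPrime p)
    (τ0 : ff_GQ) (hτ0 : τ0 ∈ P.inertiaSubgroupIn ℚ) (k₀ : ℕ)
    (hk₀ : ∀ μ : ff_Qb, μ ^ p = 1 → τ0 μ = μ ^ k₀) : s33s_Nilp H P τ0 (k₀ : ℤ) := by
  intro n
  rcases Nat.eq_zero_or_pos n with rfl | hn
  · refine ⟨0, fun σ _ v => ?_⟩
    rw [pow_zero, Ideal.one_eq_top, Submodule.top_smul]
    trivial
  · obtain ⟨k, hk⟩ := s33tm_fin hp hp2 hp𝒪 hpM hNS H hres P hP τ0 hτ0 k₀ hk₀ n hn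
    exact ⟨k, s33tr_nilp_of H.ρ (maximalIdeal T ^ n) (P.inertiaSubgroupIn ℚ)
      (⟨τ0, hτ0⟩ : ↥(P.inertiaSubgroupIn ℚ)) (k₀ : ℤ) k hk⟩

end Fin

variable {p : ℕ} {N : ℕ} [NeZero N] {S : Finset ℕ}
  {𝒪 : Type} [CommRing 𝒪] [IsDomain 𝒪] [IsDiscreteValuationRing 𝒪]
  [IsAdicComplete (IsLocalRing.maximalIdeal 𝒪) 𝒪]
  {θ : CuspForm.heckeAlgebra N 2 (↑S : Set ℕ) →+* IsLocalRing.ResidueField 𝒪}
  {T : Type} [CommRing T] [IsLocalRing T] [IsNoetherianRing T]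
  [IsAdicComplete (IsLocalRing.maximalIdeal T) T] [Algebra 𝒪 T] [IsLocalHom (algebraMap 𝒪 T)]
  [Module.Finite 𝒪 T] [Module.Free 𝒪 T]

/-- **STEP 2**: `s33s_Nilp H P τ0 k₀`. -/
theorem s33tm_nilp [Finite (ResidueField 𝒪)] [CharZero 𝒪] (hp : p.Prime) (hp2 : p ≠ 2)
    (hp𝒪 : (p : 𝒪) ∈ maximalIdeal 𝒪) (hN : p ∣ N ∧ ¬ p ^ 2 ∣ N)
    (hNS : ∀ q : ℕ, q.Prime → q ∣ N → q ∈ S)
    (H : CuspForm.HeckeGaloisRepDatum N (↑S : Set ℕ) 𝒪 θ T)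
    (hres : (GaloisRepAdic.ofResidualGaloisRep H.ρ.residual).IsOrdinaryAt p)
    (P : ValuationSubring ff_Qb) (hP : P.LiesOverPrime p)
    (τ0 : ff_GQ) (hτ0 : τ0 ∈ P.inertiaSubgroupIn ℚ) (k₀ : ℕ)
    (hk₀ : ∀ μ : ff_Qb, μ ^ p = 1 → τ0 μ = μ ^ k₀) : s33s_Nilp H P τ0 (k₀ : ℤ) := by
  obtain ⟨hN1, hN2⟩ := hN
  obtain ⟨M', hM'⟩ : ∃ M' : ℕ, N = M' * p := by
    obtain ⟨M', h⟩ := hN1
    exact ⟨M', by rw [h, mul_comm]⟩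
  subst hM'
  have hM0 : M' ≠ 0 := fun h => NeZero.ne (M' * p) (by rw [h, zero_mul])
  haveI : NeZero M' := ⟨hM0⟩
  haveI : NeZero p := ⟨hp.ne_zero⟩
  have hpM : ¬ p ∣ M' := fun h => hN2 (by rw [pow_two]; exact mul_dvd_mul h (dvd_refl p))
  exact s33tm_nilp' hp hp2 hp𝒪 hpM hNS H hres P hP τ0 hτ0 k₀ hk₀

/-- **the frozen statement S33.** -/
theorem s33tm_main [Finite (ResidueField 𝒪)] [CharZero 𝒪] (hp : p.Prime) (hp2 : p ≠ 2)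
    (hp𝒪 : (p : 𝒪) ∈ maximalIdeal 𝒪) (hN : p ∣ N ∧ ¬ p ^ 2 ∣ N)
    (hNS : ∀ q : ℕ, q.Prime → q ∣ N → q ∈ S)
    (H : CuspForm.HeckeGaloisRepDatum N (↑S : Set ℕ) 𝒪 θ T)
    (hres : (GaloisRepAdic.ofResidualGaloisRep H.ρ.residual).IsOrdinaryAt p) :
    H.ρ.IsOrdinaryAt p :=
  s33s_step1 H hp hp2 hp𝒪 hN hNS hres (fun P hP τ0 hτ0 k₀ hk₀ _ =>
    s33tm_nilp hp hp2 hp𝒪 hN hNS H hres P hP τ0 hτ0 k₀ hk₀)

end Fermat.Agent.S33
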